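import Fermat.Agent.S14.FirstIneq.Defs

/-!
# S14 / FirstIneq / SUnit / Basic : the `S`-units (Mathlib's `Set.unit`) of a number field are
finitely generated, and general facts on `SUnits K S` (comparison with `Set.unit`, saturation,
`p`-th powers, torsion).

Leaf of the block `FirstIneq/SUnit` (owner: block architect of `SUnit`).  Complete.
-/

set_option autoImplicit false
set_option linter.unusedSectionVars false

namespace Fermat.Agent.S14.FirstIneq

open NumberField IsDedekindDomain

/-- Subgroup version of `Submodule.fg_of_fg_map_of_fg_inf_ker`: an extension of a finitely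
generated group by a finitely generated group is finitely generated. -/
theorem SUnit.fg_of_fg_map_of_fg_inf_ker {G H : Type*} [Group G] [Group H] (f : G →* H)
    {s : Subgroup G} (h1 : (s.map f).FG) (h2 : (s ⊓ f.ker).FG) : s.FG := by
  classical
  obtain ⟨T, hT⟩ := h1
  obtain ⟨A, hA⟩ := h2
  have hex : ∀ t : H, t ∈ T → ∃ g ∈ s, f g = t := by
    intro t ht
    have : t ∈ s.map f := by
      rw [← hT]
      exact Subgroup.subset_closure ht
    exact Subgroup.mem_map.mp this
  choose! g hgs hgf using hex
  have hgT : Subgroup.closure (g '' (T : Set H)) ≤ s := by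
    rw [Subgroup.closure_le]
    rintro _ ⟨t, ht, rfl⟩
    exact hgs t ht
  refine ⟨A ∪ T.image g, le_antisymm ?_ ?_⟩
  · rw [Subgroup.closure_le]
    intro x hx
    rw [Finset.coe_union, Finset.coe_image] at hx
    rcases hx with hx | hx
    · have : x ∈ s ⊓ f.ker := by
        rw [← hA]
        exact Subgroup.subset_closure hx
      exact this.1
    · exact hgT (Subgroup.subset_closure hx)
  · intro x hx
    have himg : (fun t => f (g t)) '' (T : Set H) = (T : Set H) := by
      ext t
      constructor
      · rintro ⟨t', ht', rfl⟩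
        show f (g t') ∈ (T : Set H)
        rw [hgf t' ht']
        exact ht'
      · intro ht
        exact ⟨t, ht, hgf t ht⟩
    have hfx : f x ∈ (Subgroup.closure (g '' (T : Set H))).map f := by
      rw [MonoidHom.map_closure, Set.image_image, himg, hT]
      exact Subgroup.mem_map_of_mem f hx
    obtain ⟨y, hy, hyx⟩ := Subgroup.mem_map.mp hfx
    have hys : y ∈ s := hgT hy
    have hker : x * y⁻¹ ∈ s ⊓ f.ker := by
      refine Subgroup.mem_inf.mpr ⟨s.mul_mem hx (s.inv_mem hys), MonoidHom.mem_ker.mpr ?_⟩
      rw [map_mul, map_inv, hyx, mul_inv_cancel]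
    rw [← hA] at hker
    have hle1 : Subgroup.closure (A : Set G) ≤
        Subgroup.closure ((A ∪ T.image g : Finset G) : Set G) :=
      Subgroup.closure_mono (by simp)
    have hle2 : Subgroup.closure (g '' (T : Set H)) ≤
        Subgroup.closure ((A ∪ T.image g : Finset G) : Set G) :=
      Subgroup.closure_mono (by simp)
    have hmul := Subgroup.mul_mem _ (hle1 hker) (hle2 hy)
    rwa [inv_mul_cancel_right] at hmul

/-- Every subgroup of `Multiplicative ℤ` is finitely generated. -/
theorem SUnit.fg_of_subgroup_int (H : Subgroup (Multiplicative ℤ)) : H.FG := by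
  obtain ⟨g, hg⟩ := IsCyclic.exists_generator (α := H)
  refine ⟨{(g : Multiplicative ℤ)}, ?_⟩
  rw [Finset.coe_singleton, ← Subgroup.zpowers_eq_closure]
  ext x
  constructor
  · rintro ⟨n, rfl⟩
    exact H.zpow_mem g.2 n
  · intro hx
    obtain ⟨n, hn⟩ := hg ⟨x, hx⟩
    exact ⟨n, by simpa using congrArg Subtype.val hn⟩

variable (K : Type*) [Field K] [NumberField K]

/-- The `∅`-units are the units of the ring of integers. -/
theorem SUnit.unit_empty_eq :
    (∅ : Set (HeightOneSpectrum (𝓞 K))).unit K =
      (Units.map (algebraMap (𝓞 K) K : 𝓞 K →* K)).range := by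
  ext x
  constructor
  · intro hx
    have h1 : ∀ v : HeightOneSpectrum (𝓞 K), v.valuation K (x : K) = 1 :=
      fun v => hx v (Set.notMem_empty v)
    have h2 : ∀ v : HeightOneSpectrum (𝓞 K), v.valuation K ((x⁻¹ : Kˣ) : K) = 1 := fun v => by
      rw [Units.val_inv_eq_inv_val, map_inv₀, h1 v, inv_one]
    obtain ⟨a, ha⟩ :=
      HeightOneSpectrum.mem_integers_of_valuation_le_one K (x : K) (fun v => (h1 v).le)
    obtain ⟨b, hb⟩ :=
      HeightOneSpectrum.mem_integers_of_valuation_le_one K ((x⁻¹ : Kˣ) : K) (fun v => (h2 v).le)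
    have hab : a * b = 1 := by
      apply FaithfulSMul.algebraMap_injective (𝓞 K) K
      rw [map_mul, ha, hb, map_one, Units.mul_inv]
    refine ⟨⟨a, b, hab, by rw [mul_comm]; exact hab⟩, ?_⟩
    ext
    exact ha
  · rintro ⟨u, rfl⟩ v _
    have h := HeightOneSpectrum.valuation_of_unit_eq (K := K) v u
    rw [← WithZero.coe_inj, HeightOneSpectrum.valuationOfNeZero_eq] at h
    exact h

/-- Finite generation of the `T`-units, `T` a finite set of primes (Dirichlet's unit theorem and
induction on `T`). -/
theorem SUnit.unit_fg (T : Finset (HeightOneSpectrum (𝓞 K))) :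
    ((T : Set (HeightOneSpectrum (𝓞 K))).unit K).FG := by
  classical
  induction T using Finset.induction_on with
  | empty =>
    rw [Finset.coe_empty, SUnit.unit_empty_eq]
    have : Group.FG (𝓞 K)ˣ := Group.fg_iff_monoid_fg.mpr inferInstance
    exact (Group.fg_iff_subgroup_fg _).mp inferInstance
  | insert v T hv ih =>
    apply SUnit.fg_of_fg_map_of_fg_inf_ker (v.valuationOfNeZero : Kˣ →* Multiplicative ℤ)
    · exact SUnit.fg_of_subgroup_int _
    · have heq : ((insert v T : Finset (HeightOneSpectrum (𝓞 K))) :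
            Set (HeightOneSpectrum (𝓞 K))).unit K ⊓
          (v.valuationOfNeZero : Kˣ →* Multiplicative ℤ).ker =
          (T : Set (HeightOneSpectrum (𝓞 K))).unit K := by
        ext x
        constructor
        · intro hx w hw
          obtain ⟨hx1, hx2⟩ := Subgroup.mem_inf.mp hx
          by_cases hwv : w = v
          · subst hwv
            rw [MonoidHom.mem_ker] at hx2
            rw [← HeightOneSpectrum.valuationOfNeZero_eq, hx2]
            rfl
          · exact hx1 w (by simpa [hwv] using hw)
        · intro hx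
          refine Subgroup.mem_inf.mpr
            ⟨fun w hw => hx w (fun h => hw (by simp [h])), MonoidHom.mem_ker.mpr ?_⟩
          rw [← WithZero.coe_inj, HeightOneSpectrum.valuationOfNeZero_eq]
          exact hx v (by simpa using hv)
      rw [heq]
      exact ih

/-- `SUnits K S` is Mathlib's group of `S'`-units, `S'` the set of primes whose ideal is in
`S`. -/
theorem SUnit.sunits_eq_unit (S : Set (Ideal (𝓞 K))) :
    SUnits K S = ({v : HeightOneSpectrum (𝓞 K) | v.asIdeal ∈ S}).unit K := by
  ext x
  exact Iff.rfl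

/-- The set of primes whose ideal lies in a finite set is finite. -/
theorem SUnit.finite_preimage {S : Set (Ideal (𝓞 K))} (hS : S.Finite) :
    {v : HeightOneSpectrum (𝓞 K) | v.asIdeal ∈ S}.Finite :=
  hS.preimage (fun _ _ _ _ h => HeightOneSpectrum.ext h)

/-- Saturation: if `t ^ n` is an `S`-unit (`n ≠ 0`), then so is `t`. -/
theorem SUnit.mem_of_pow_mem (S : Set (Ideal (𝓞 K))) {n : ℕ} (hn : n ≠ 0) {t : Kˣ}
    (ht : t ^ n ∈ SUnits K S) : t ∈ SUnits K S := by
  intro v hv
  have h := ht v hv
  rw [Units.val_pow_eq_pow_val, map_pow] at h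
  exact (pow_eq_one_iff_of_nonneg zero_le hn).mp h

/-- The `n`-th powers of `S`-units are the `S`-units which are `n`-th powers in `Kˣ`. -/
theorem SUnit.map_pow_eq (S : Set (Ideal (𝓞 K))) {n : ℕ} (hn : n ≠ 0) :
    (SUnits K S).map (powMonoidHom n : Kˣ →* Kˣ) =
      (powMonoidHom n : Kˣ →* Kˣ).range ⊓ SUnits K S := by
  ext x
  constructor
  · rintro ⟨t, ht, rfl⟩
    exact Subgroup.mem_inf.mpr ⟨⟨t, rfl⟩, (SUnits K S).pow_mem ht n⟩
  · intro hx
    obtain ⟨⟨t, rfl⟩, hx2⟩ := Subgroup.mem_inf.mp hx
    exact ⟨t, SUnit.mem_of_pow_mem K S hn hx2, rfl⟩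

/-- The `n`-torsion of the `S`-units is the group of `n`-th roots of unity. -/
theorem SUnit.inf_ker_eq (S : Set (Ideal (𝓞 K))) {n : ℕ} (hn : n ≠ 0) :
    SUnits K S ⊓ (powMonoidHom n : Kˣ →* Kˣ).ker = rootsOfUnity n K := by
  ext x
  rw [Subgroup.mem_inf, MonoidHom.mem_ker, powMonoidHom_apply, mem_rootsOfUnity]
  constructor
  · exact fun h => h.2
  · intro h
    refine ⟨SUnit.mem_of_pow_mem K S hn ?_, h⟩
    rw [h]
    exact one_mem _

/-- For a finite set `S` of nonzero prime ideals, the set of primes with ideal in `S` has the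
same cardinality as `S`. -/
theorem SUnit.card_preimage {S : Set (Ideal (𝓞 K))} (hS : S.Finite)
    (hSp : ∀ v ∈ S, v.IsPrime ∧ v ≠ ⊥) :
    (SUnit.finite_preimage K hS).toFinset.card = S.ncard := by
  have himg : S = HeightOneSpectrum.asIdeal ''
      {v : HeightOneSpectrum (𝓞 K) | v.asIdeal ∈ S} := by
    ext I
    constructor
    · intro hI
      exact ⟨⟨I, (hSp I hI).1, (hSp I hI).2⟩, hI, rfl⟩
    · rintro ⟨v, hv, rfl⟩
      exact hv
  have hinj : Function.Injective
      (HeightOneSpectrum.asIdeal : HeightOneSpectrum (𝓞 K) → Ideal (𝓞 K)) :=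
    fun _ _ h => HeightOneSpectrum.ext h
  conv_rhs => rw [himg, Set.ncard_image_of_injective _ hinj]
  rw [← Set.ncard_coe_finset, Set.Finite.coe_toFinset]

end Fermat.Agent.S14.FirstIneq
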